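/-
Fermat.Agent.S55.Devissage38.InfRes2Core (helper38)

Elementary cocycle computations behind the degree-2 inflation-restriction sequence
`0 → H²(G/S, A^S) → H²(G, A) → H²(S, A)` (valid when `H¹(S, A) = 0`).
Everything here is about plain functions `G × G → V` for a representation `ρ` of `G` on `V`.
-/
import Mathlib

set_option autoImplicit false
set_option linter.style.haveILetI false

namespace Fermat.Agent.S55.Devissage38

variable {k G V : Type*} [CommRing k] [Group G] [AddCommGroup V] [Module k V]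

/-- The 2-cocycle identity (in the normal form of `groupCohomology.mem_cocycles₂_iff`). -/
def IsCoc2 (ρ : Representation k G V) (f : G × G → V) : Prop :=
  ∀ g h j : G, f (g * h, j) + f (g, h) = ρ g (f (h, j)) + f (g, h * j)

/-- The coboundary of a 1-cochain. -/
def cob1 (ρ : Representation k G V) (φ : G → V) : G × G → V :=
  fun p => ρ p.1 (φ p.2) - φ (p.1 * p.2) + φ p.1

/-- Elementary form of `H¹(S, V) = 0`. -/
def H1Vanishes (ρ : Representation k G V) (S : Subgroup G) : Prop :=
  ∀ c : S → V, (∀ s t : S, c (s * t) = ρ (s : G) (c t) + c s) →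
    ∃ a : V, ∀ s : S, c s = ρ (s : G) a - a

variable {ρ : Representation k G V} {S : Subgroup G}

lemma isCoc2_cob1 (φ : G → V) : IsCoc2 ρ (cob1 ρ φ) := by
  intro g h j
  simp only [cob1, map_add, map_sub, map_mul, Module.End.mul_apply, mul_assoc]
  abel

lemma IsCoc2.add {f f' : G × G → V} (hf : IsCoc2 ρ f) (hf' : IsCoc2 ρ f') :
    IsCoc2 ρ (fun p => f p + f' p) := by
  intro g h j
  have h1 := hf g h j
  have h2 := hf' g h j
  simp only [map_add]
  calc f (g * h, j) + f' (g * h, j) + (f (g, h) + f' (g, h))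
      = (f (g * h, j) + f (g, h)) + (f' (g * h, j) + f' (g, h)) := by abel
    _ = (ρ g (f (h, j)) + f (g, h * j)) + (ρ g (f' (h, j)) + f' (g, h * j)) := by rw [h1, h2]
    _ = _ := by abel

lemma IsCoc2.map_one_fst {f : G × G → V} (hf : IsCoc2 ρ f) (g : G) : f (1, g) = f (1, 1) := by
  have := hf 1 1 g
  simp only [mul_one, one_mul, map_one, Module.End.one_apply] at this
  exact (add_left_cancel this).symm

lemma IsCoc2.map_one_snd {f : G × G → V} (hf : IsCoc2 ρ f) (g : G) :
    f (g, 1) = ρ g (f (1, 1)) := by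
  have := hf g 1 1
  simp only [mul_one] at this
  exact add_right_cancel this


/-! ### The conjugation cocycle `c_g(s) = f(g, g⁻¹sg) - f(s, g)` -/

/-- `c_g(s) = f(g, g⁻¹ s g) - f(s, g)`. -/
def cc (f : G × G → V) (g s : G) : V := f (g, g⁻¹ * s * g) - f (s, g)

section
variable [S.Normal] {f : G × G → V}

lemma cc_cocycle (hf : IsCoc2 ρ f) (hfS : ∀ s t, s ∈ S → t ∈ S → f (s, t) = 0)
    (g s t : G) (hs : s ∈ S) (ht : t ∈ S) :
    cc f g (s * t) = ρ s (cc f g t) + cc f g s := by
  have hs' : g⁻¹ * s * g ∈ S := Subgroup.Normal.conj_mem' ‹_› s hs g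
  have ht' : g⁻¹ * t * g ∈ S := Subgroup.Normal.conj_mem' ‹_› t ht g
  have h1 := hf g (g⁻¹ * s * g) (g⁻¹ * t * g)
  have h2 := hf s g (g⁻¹ * t * g)
  have h3 := hf s t g
  rw [hfS _ _ hs' ht', map_zero, zero_add] at h1
  rw [hfS _ _ hs ht, add_zero] at h3
  have e1 : g * (g⁻¹ * s * g) = s * g := by group
  have e2 : g⁻¹ * s * g * (g⁻¹ * t * g) = g⁻¹ * (s * t) * g := by group
  have e3 : g * (g⁻¹ * t * g) = t * g := by group
  rw [e1, e2] at h1
  rw [e3] at h2
  simp only [cc, map_sub]
  linear_combination (norm := abel) h2 - h1 - h3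

lemma cc_mul (hf : IsCoc2 ρ f) (hfS : ∀ s t, s ∈ S → t ∈ S → f (s, t) = 0)
    (g t s : G) (ht : t ∈ S) (hs : s ∈ S) :
    cc f (g * t) s = cc f g s + (ρ s (f (g, t)) - f (g, t)) := by
  have hs' : g⁻¹ * s * g ∈ S := Subgroup.Normal.conj_mem' ‹_› s hs g
  have hs'' : t⁻¹ * (g⁻¹ * s * g) * t ∈ S := Subgroup.Normal.conj_mem' ‹_› _ hs' t
  have k1 := hf g t (t⁻¹ * (g⁻¹ * s * g) * t)
  have k2 := hf g (g⁻¹ * s * g) t
  have k3 := hf s g t
  rw [hfS _ _ ht hs'', map_zero, zero_add] at k1
  rw [hfS _ _ hs' ht, map_zero, zero_add] at k2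
  have e1 : t * (t⁻¹ * (g⁻¹ * s * g) * t) = g⁻¹ * s * g * t := by group
  have e2 : g * (g⁻¹ * s * g) = s * g := by group
  have e3 : (g * t)⁻¹ * s * (g * t) = t⁻¹ * (g⁻¹ * s * g) * t := by group
  rw [e1] at k1
  rw [e2] at k2
  simp only [cc]
  rw [e3]
  linear_combination (norm := abel) k1 - k2 + k3

/-- A coset representative of `g` modulo `S`. -/
noncomputable def rep (S : Subgroup G) (g : G) : G := (QuotientGroup.mk g : G ⧸ S).out

omit [S.Normal] in
lemma rep_inv_mul_mem (g : G) : (rep S g)⁻¹ * g ∈ S := by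
  obtain ⟨h, hh⟩ := QuotientGroup.mk_out_eq_mul S g
  unfold rep
  rw [hh]
  simp

omit [S.Normal] in
lemma rep_mul (g : G) {s : G} (hs : s ∈ S) : rep S (g * s) = rep S g := by
  unfold rep
  rw [QuotientGroup.mk_mul_of_mem g hs]

/-- Coherent choice of elements `a g` trivialising the conjugation cocycles. -/
theorem exists_adjust (hH1 : H1Vanishes ρ S) (hf : IsCoc2 ρ f)
    (hfS : ∀ s t, s ∈ S → t ∈ S → f (s, t) = 0) :
    ∃ a : G → V, (∀ g s, s ∈ S → cc f g s = ρ s (a g) - a g) ∧
      (∀ g t, t ∈ S → a (g * t) = a g + f (g, t)) := by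
  have hα : ∀ g, ∃ α : V, ∀ s : S, cc f g s = ρ (s : G) α - α := fun g =>
    hH1 (fun s => cc f g s) (fun s t => cc_cocycle hf hfS g s t s.2 t.2)
  choose α hα using hα
  refine ⟨fun g => α (rep S g) + f (rep S g, (rep S g)⁻¹ * g), ?_, ?_⟩
  · intro g s hs
    have hu := rep_inv_mul_mem (S := S) g
    have h1 := cc_mul hf hfS (rep S g) ((rep S g)⁻¹ * g) s hu hs
    rw [mul_inv_cancel_left] at h1
    have h2 := hα (rep S g) ⟨s, hs⟩
    simp only at h2
    beta_reduce
    rw [h1, h2, map_add]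
    abel
  · intro g t ht
    have hu := rep_inv_mul_mem (S := S) g
    have h1 := hf (rep S g) ((rep S g)⁻¹ * g) t
    rw [hfS _ _ hu ht, map_zero, zero_add, mul_inv_cancel_left] at h1
    beta_reduce
    rw [rep_mul g ht, ← mul_assoc, ← h1]
    abel

/-- **Core of exactness of inflation–restriction in degree 2.** A 2-cocycle vanishing on `S × S`
is cohomologous to a cocycle that is constant on cosets of `S` (in both variables) and has
`S`-invariant values, provided `H¹(S, V) = 0`. -/
theorem exists_inflated (hH1 : H1Vanishes ρ S) (hf : IsCoc2 ρ f)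
    (hfS : ∀ s t, s ∈ S → t ∈ S → f (s, t) = 0) :
    ∃ φ : G → V,
      (∀ g h s t, s ∈ S → t ∈ S →
        f (g * s, h * t) + cob1 ρ φ (g * s, h * t) = f (g, h) + cob1 ρ φ (g, h)) ∧
      (∀ g h s, s ∈ S → ρ s (f (g, h) + cob1 ρ φ (g, h)) = f (g, h) + cob1 ρ φ (g, h)) := by
  obtain ⟨a, ha1, ha2⟩ := exists_adjust hH1 hf hfS
  refine ⟨a, ?_⟩
  set f' : G × G → V := fun p => f p + cob1 ρ a p with hf'def
  have hf' : IsCoc2 ρ f' := hf.add (isCoc2_cob1 a)
  have one_mem : (1 : G) ∈ S := S.one_mem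
  have f11 : f (1, 1) = 0 := hfS 1 1 one_mem one_mem
  have f1 : ∀ g, f (1, g) = 0 := fun g => (hf.map_one_fst g).trans f11
  -- `a t = a 1` for `t ∈ S`
  have aS : ∀ t, t ∈ S → a t = a 1 := by
    intro t ht
    have := ha2 1 t ht
    rw [one_mul, f1, add_zero] at this
    exact this
  -- `f' (g, t) = ρ g (a 1)` for `t ∈ S`
  have hsnd : ∀ g t, t ∈ S → f' (g, t) = ρ g (a 1) := by
    intro g t ht
    simp only [hf'def, cob1, ha2 g t ht, aS t ht]
    abel
  -- `f' (s, h) = a 1` for `s ∈ S`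
  have hfst : ∀ s h, s ∈ S → f' (s, h) = a 1 := by
    intro s h hs
    have hs' : h⁻¹ * s * h ∈ S := Subgroup.Normal.conj_mem' ‹_› s hs h
    have e : s * h = h * (h⁻¹ * s * h) := by group
    have h1 := ha2 h _ hs'
    rw [← e] at h1
    have h2 := ha1 h s hs
    simp only [cc] at h2
    simp only [hf'def, cob1, h1, aS s hs]
    linear_combination (norm := abel) (-1 : ℤ) • h2
  have hright : ∀ g h t, t ∈ S → f' (g, h * t) = f' (g, h) := by
    intro g h t ht
    have := hf' g h t
    rw [hsnd _ _ ht, hsnd _ _ ht, map_mul, Module.End.mul_apply] at this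
    linear_combination (norm := abel) (-1 : ℤ) • this
  have hleft : ∀ g h s, s ∈ S → f' (g * s, h) = f' (g, h) := by
    intro g h s hs
    have hs' : h⁻¹ * s * h ∈ S := Subgroup.Normal.conj_mem' ‹_› s hs h
    have e : s * h = h * (h⁻¹ * s * h) := by group
    have := hf' g s h
    rw [hsnd _ _ hs, hfst _ _ hs, e, hright _ _ _ hs'] at this
    linear_combination (norm := abel) this
  have hinv : ∀ g h s, s ∈ S → ρ s (f' (g, h)) = f' (g, h) := by
    intro g h s hs
    have hs' : g⁻¹ * s * g ∈ S := Subgroup.Normal.conj_mem' ‹_› s hs g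
    have e : s * g = g * (g⁻¹ * s * g) := by group
    have := hf' s g h
    rw [hfst _ _ hs, hfst _ _ hs, e, hleft _ _ _ hs'] at this
    linear_combination (norm := abel) (-1 : ℤ) • this
  refine ⟨fun g h s t hs ht => ?_, fun g h s hs => hinv g h s hs⟩
  change f' (g * s, h * t) = f' (g, h)
  rw [hright _ _ _ ht, hleft _ _ _ hs]

/-- **Core of injectivity of inflation in degree 2.** If an inflated 2-cocycle `fb` (constant on
cosets of `S`, with `S`-invariant value at `(1,1)`) is the coboundary of `φ`, then it is the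
coboundary of a 1-cochain that is constant on cosets with `S`-invariant values, provided
`H¹(S, V) = 0`. -/
theorem exists_inflated_cochain (hH1 : H1Vanishes ρ S) {fb : G × G → V} (hfb : IsCoc2 ρ fb)
    (hconst : ∀ g h s t, s ∈ S → t ∈ S → fb (g * s, h * t) = fb (g, h))
    (hinv : ∀ s, s ∈ S → ρ s (fb (1, 1)) = fb (1, 1))
    (φ : G → V) (hφ : ∀ g h, fb (g, h) = cob1 ρ φ (g, h)) :
    ∃ φ' : G → V, (∀ g h, fb (g, h) = cob1 ρ φ' (g, h)) ∧
      (∀ g s, s ∈ S → φ' (g * s) = φ' g) ∧ (∀ g s, s ∈ S → ρ s (φ' g) = φ' g) := by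
  have fbS : ∀ s t, s ∈ S → t ∈ S → fb (s, t) = fb (1, 1) := by
    intro s t hs ht
    have := hconst 1 1 s t hs ht
    rwa [one_mul, one_mul] at this
  -- `ψ = φ - c₀` is a 1-cocycle on `S`
  obtain ⟨a, ha⟩ := hH1 (fun s => φ s - fb (1, 1)) (by
    intro s t
    have h1 := hφ s t
    rw [fbS _ _ s.2 t.2] at h1
    simp only [cob1] at h1
    simp only [Subgroup.coe_mul, map_sub, hinv _ s.2]
    linear_combination (norm := abel) h1)
  refine ⟨fun g => φ g - (ρ g a - a), ?_, ?_, ?_⟩
  · intro g h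
    rw [hφ g h]
    simp only [cob1, map_sub, map_mul, Module.End.mul_apply]
    abel
  all_goals
    have hφ'S : ∀ s, s ∈ S → φ s - (ρ s a - a) = fb (1, 1) := by
      intro s hs
      have := ha ⟨s, hs⟩
      simp only at this
      linear_combination (norm := abel) this
    have hφ' : ∀ g h, fb (g, h) = ρ g (φ h - (ρ h a - a)) - (φ (g * h) - (ρ (g * h) a - a))
        + (φ g - (ρ g a - a)) := by
      intro g h
      rw [hφ g h]
      simp only [cob1, map_sub, map_mul, Module.End.mul_apply]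
      abel
    have hright : ∀ g s, s ∈ S → φ (g * s) - (ρ (g * s) a - a) = φ g - (ρ g a - a) := by
      intro g s hs
      have h1 := hφ' g s
      rw [hφ'S s hs] at h1
      have h2 : fb (g, s) = ρ g (fb (1, 1)) := by
        have := hconst g 1 1 s S.one_mem hs
        rw [mul_one, one_mul] at this
        rw [this, hfb.map_one_snd]
      rw [h2] at h1
      linear_combination (norm := abel) h1
  · exact hright
  · intro g s hs
    have hs' : g⁻¹ * s * g ∈ S := Subgroup.Normal.conj_mem' ‹_› s hs g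
    have e : s * g = g * (g⁻¹ * s * g) := by group
    have h1 := hφ' s g
    rw [hφ'S s hs, e, hright g _ hs'] at h1
    have h2 : fb (s, g) = fb (1, 1) := by
      have := hconst 1 g s 1 hs S.one_mem
      rw [mul_one, one_mul] at this
      rw [this, hfb.map_one_fst]
    rw [h2] at h1
    beta_reduce
    linear_combination (norm := abel) (-1 : ℤ) • h1

end

/-- Counting along a left-exact sequence `0 → X₁ → X₂ → X₃` of abelian groups. -/
theorem card_dvd_of_left_exact {X₁ X₂ X₃ : Type*} [AddCommGroup X₁] [AddCommGroup X₂]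
    [AddCommGroup X₃] (f : X₁ →+ X₂) (g : X₂ →+ X₃) (hf : Function.Injective f)
    (hfg : ∀ y, g y = 0 → ∃ x, f x = y) [Finite X₁] [Finite X₃] :
    Finite X₂ ∧ Nat.card X₂ ∣ Nat.card X₁ * Nat.card X₃ := by
  -- `ker g` is a quotient of `X₁`
  have hker : Finite g.ker := by
    have hsurj : Function.Surjective (fun x : {x : X₁ // g (f x) = 0} => (⟨f x.1, x.2⟩ : g.ker)) := by
      rintro ⟨y, hy⟩
      obtain ⟨x, rfl⟩ := hfg y hy
      exact ⟨⟨x, hy⟩, rfl⟩
    exact Finite.of_surjective _ hsurj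
  have hquot : Finite (X₂ ⧸ g.ker) :=
    Finite.of_equiv _ (QuotientAddGroup.quotientKerEquivRange g).symm.toEquiv
  have hfin : Finite X₂ := Finite.of_addSubgroup_quotient g.ker
  refine ⟨hfin, ?_⟩
  rw [AddSubgroup.card_eq_card_quotient_mul_card_addSubgroup g.ker, mul_comm]
  refine Nat.mul_dvd_mul ?_ ?_
  · -- `|ker g|` divides `|X₁|`: `ker g` is the image of the subgroup `f⁻¹(ker g)` under injective f
    have e : (g.ker.comap f) ≃ g.ker :=
      Equiv.ofBijective (fun x => ⟨f x.1, x.2⟩)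
        ⟨fun a b hab => Subtype.ext (hf (congrArg Subtype.val hab)), by
          rintro ⟨y, hy⟩
          obtain ⟨x, rfl⟩ := hfg y hy
          exact ⟨⟨x, hy⟩, rfl⟩⟩
    rw [← Nat.card_congr e]
    exact AddSubgroup.card_addSubgroup_dvd_card _
  · rw [Nat.card_congr (QuotientAddGroup.quotientKerEquivRange g).toEquiv]
    exact AddSubgroup.card_addSubgroup_dvd_card _

end Fermat.Agent.S55.Devissage38
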