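/-
Fermat.Agent.S55.Devissage38.InfRes2 (helper38)

Degree-2 inflation-restriction for Mathlib's `groupCohomology`:
`0 → H²(G ⧸ S, A^S) → H²(G, A) → H²(S, A)` is exact when `H¹(S, A) = 0`.
-/
import Mathlib
import Fermat.Agent.S55.Devissage38.InfRes2Core

set_option autoImplicit false
set_option linter.style.haveILetI false

universe u

open CategoryTheory groupCohomology Rep

namespace Fermat.Agent.S55.Devissage38

variable {k G : Type u} [CommRing k] [Group G] (A : Rep k G) (S : Subgroup G)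

/-- `H¹(S, A) = 0` in elementary form. -/
lemma h1Vanishes_of_isZero
    (h1 : Limits.IsZero (groupCohomology (res S.subtype A) 1)) : H1Vanishes A.ρ S := by
  intro c hc
  let c' : S → (res S.subtype A) := c
  have hmem : c' ∈ cocycles₁ (res S.subtype A) := (mem_cocycles₁_iff c').2 fun s t => hc s t
  have hz : H1π (res S.subtype A) ⟨c', hmem⟩ = 0 :=
    (ModuleCat.subsingleton_of_isZero h1).elim _ _
  obtain ⟨a, ha⟩ := (H1π_eq_zero_iff _).1 hz
  exact ⟨a, fun s => (congr_fun ha s).symm⟩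

lemma isCoc2_of_mem_cocycles₂ (f : cocycles₂ A) : IsCoc2 A.ρ (f : G × G → A) :=
  fun g h j => (mem_cocycles₂_iff (f : G × G → A)).1 f.2 g h j

lemma mem_cocycles₂_of_isCoc2 {f : G × G → A} (hf : IsCoc2 A.ρ f) : f ∈ cocycles₂ A :=
  (mem_cocycles₂_iff f).2 hf

lemma d₁₂_eq_cob1 (φ : G → A) : (d₁₂ A φ : G × G → A) = cob1 A.ρ φ := rfl

variable [S.Normal]

/-- The inflation of a 2-cocycle, evaluated. -/
lemma infl_apply (x : cocycles₂ (A.quotientToInvariants S)) (g h : G) :
    (mapCocycles₂ (QuotientGroup.mk' S) (ofHom <| A.ρ.quotientToInvariants_lift S) x :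
      G × G → A) (g, h) = ((x ((g : G ⧸ S), (h : G ⧸ S))).1 : A) := by
  rfl

omit [S.Normal] in
/-- The restriction of a 2-cocycle, evaluated. -/
lemma res_apply (x : cocycles₂ A) (s t : S) :
    (mapCocycles₂ S.subtype (𝟙 (res S.subtype A)) x : S × S → A) (s, t) = x ((s : G), (t : G)) := by
  rfl

/-- The short complex `H²(G ⧸ S, A^S) ⟶ H²(G, A) ⟶ H²(S, A)`. -/
noncomputable def H2InfRes : ShortComplex (ModuleCat k) where
  X₁ := groupCohomology (A.quotientToInvariants S) 2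
  X₂ := groupCohomology A 2
  X₃ := groupCohomology (res S.subtype A) 2
  f := map (QuotientGroup.mk' S) (ofHom <| A.ρ.quotientToInvariants_lift S) 2
  g := map S.subtype (𝟙 _) 2
  zero := by
    ext x
    induction x using H2_induction_on with | @h x =>
    simp only [ModuleCat.hom_comp, LinearMap.comp_apply]
    rw [H2π_comp_map_apply, H2π_comp_map_apply]
    change _ = 0
    refine (H2π_eq_zero_iff _).2 ⟨fun _ => ((x (1, 1)).1 : A), ?_⟩
    funext ⟨s, t⟩
    rw [res_apply, infl_apply]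
    have e1 : ((s : G) : G ⧸ S) = 1 := (QuotientGroup.eq_one_iff _).2 s.2
    have e2 : ((t : G) : G ⧸ S) = 1 := (QuotientGroup.eq_one_iff _).2 t.2
    rw [e1, e2]
    have hinv := (x (1, 1)).2 s
    simp only [d₁₂_hom_apply]
    rw [hinv]
    abel

/-- Descend a 1-cochain of `G` that is constant on cosets with invariant values. -/
noncomputable def descend₁ (φ : G → A) (hinv : ∀ g s, s ∈ S → A.ρ s (φ g) = φ g) :
    G ⧸ S → A.quotientToInvariants S :=
  fun q => ⟨φ q.out, fun s => hinv _ s.1 s.2⟩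

lemma descend₁_mk (φ : G → A) (hinv : ∀ g s, s ∈ S → A.ρ s (φ g) = φ g)
    (hconst : ∀ g s, s ∈ S → φ (g * s) = φ g) (g : G) :
    (descend₁ A S φ hinv (g : G ⧸ S)).1 = φ g := by
  obtain ⟨h, hh⟩ := QuotientGroup.mk_out_eq_mul S g
  change φ ((g : G ⧸ S).out) = φ g
  rw [hh, hconst g h h.2]

lemma quotientToInvariants_apply_coe (g : G) (v : A.quotientToInvariants S) :
    ((A.ρ.quotientToInvariants S (g : G ⧸ S)) v).1 = A.ρ g v.1 := rfl

/-- The inflation map `H²(G ⧸ S, A^S) → H²(G, A)`. -/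
noncomputable abbrev infl₂ :
    groupCohomology (A.quotientToInvariants S) 2 ⟶ groupCohomology A 2 :=
  map (QuotientGroup.mk' S) (ofHom <| A.ρ.quotientToInvariants_lift S) 2

/-- The restriction map `H²(G, A) → H²(S, A)`. -/
noncomputable abbrev res₂ :
    groupCohomology A 2 ⟶ groupCohomology (res S.subtype A) 2 :=
  map S.subtype (𝟙 _) 2

theorem infl₂_injective (h1 : Limits.IsZero (groupCohomology (res S.subtype A) 1)) :
    Function.Injective (infl₂ A S) := by
  rw [injective_iff_map_eq_zero]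
  intro x hx
  induction x using H2_induction_on with | @h x =>
  rw [H2π_comp_map_apply] at hx
  rcases (H2π_eq_zero_iff _).1 hx with ⟨φ, hφ⟩
  let xi := mapCocycles₂ (QuotientGroup.mk' S) (ofHom <| A.ρ.quotientToInvariants_lift S) x
  have hcoc : IsCoc2 A.ρ (xi : G × G → A) := isCoc2_of_mem_cocycles₂ A xi
  obtain ⟨φ', hφ'1, hφ'2, hφ'3⟩ := exists_inflated_cochain (h1Vanishes_of_isZero A S h1)
    (fb := (xi : G × G → A)) hcoc
    (fun g h s t hs ht => by
      rw [infl_apply, infl_apply, QuotientGroup.mk_mul_of_mem g hs,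
        QuotientGroup.mk_mul_of_mem h ht])
    (fun s hs => by
      rw [infl_apply]
      exact (x (1, 1)).2 ⟨s, hs⟩)
    φ (fun g h => (congr_fun hφ (g, h)).symm)
  refine (H2π_eq_zero_iff _).2 ⟨descend₁ A S φ' hφ'3, ?_⟩
  funext ⟨q1, q2⟩
  induction q1 using QuotientGroup.induction_on with | @H g =>
  induction q2 using QuotientGroup.induction_on with | @H h =>
  apply Subtype.ext
  have := hφ'1 g h
  rw [infl_apply] at this
  rw [this]
  simp only [d₁₂_hom_apply, cob1]
  rw [← QuotientGroup.mk_mul]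
  simp only [Submodule.coe_add, Submodule.coe_sub, descend₁_mk A S φ' hφ'3 hφ'2]
  rw [quotientToInvariants_apply_coe, descend₁_mk A S φ' hφ'3 hφ'2]

/-- Descend a 2-cochain of `G` that is constant on cosets with invariant values. -/
noncomputable def descend₂ (f : G × G → A) (hinv : ∀ g h s, s ∈ S → A.ρ s (f (g, h)) = f (g, h)) :
    (G ⧸ S) × (G ⧸ S) → A.quotientToInvariants S :=
  fun q => ⟨f (q.1.out, q.2.out), fun s => hinv _ _ s.1 s.2⟩

lemma descend₂_mk (f : G × G → A) (hinv : ∀ g h s, s ∈ S → A.ρ s (f (g, h)) = f (g, h))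
    (hconst : ∀ g h s t, s ∈ S → t ∈ S → f (g * s, h * t) = f (g, h)) (g h : G) :
    (descend₂ A S f hinv ((g : G ⧸ S), (h : G ⧸ S))).1 = f (g, h) := by
  obtain ⟨s, hs⟩ := QuotientGroup.mk_out_eq_mul S g
  obtain ⟨t, ht⟩ := QuotientGroup.mk_out_eq_mul S h
  change f ((g : G ⧸ S).out, (h : G ⧸ S).out) = f (g, h)
  rw [hs, ht, hconst g h s t s.2 t.2]

lemma descend₂_mem_cocycles₂ (f : G × G → A)
    (hinv : ∀ g h s, s ∈ S → A.ρ s (f (g, h)) = f (g, h))
    (hconst : ∀ g h s t, s ∈ S → t ∈ S → f (g * s, h * t) = f (g, h)) (hf : IsCoc2 A.ρ f) :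
    descend₂ A S f hinv ∈ cocycles₂ (A.quotientToInvariants S) := by
  rw [mem_cocycles₂_iff]
  intro q1 q2 q3
  induction q1 using QuotientGroup.induction_on with | @H g =>
  induction q2 using QuotientGroup.induction_on with | @H h =>
  induction q3 using QuotientGroup.induction_on with | @H j =>
  apply Subtype.ext
  rw [← QuotientGroup.mk_mul, ← QuotientGroup.mk_mul]
  simp only [Submodule.coe_add]
  rw [quotientToInvariants_apply_coe]
  simp only [descend₂_mk A S f hinv hconst]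
  exact hf g h j

theorem exists_infl₂_eq_of_res₂_eq_zero
    (h1 : Limits.IsZero (groupCohomology (res S.subtype A) 1))
    (y : groupCohomology A 2) (hy : res₂ A S y = 0) : ∃ x, infl₂ A S x = y := by
  classical
  induction y using H2_induction_on with | @h f =>
  rw [H2π_comp_map_apply] at hy
  rcases (H2π_eq_zero_iff _).1 hy with ⟨ψ, hψ⟩
  -- extend `ψ` by zero
  let ψ' : G → A := fun g => if h : g ∈ S then ψ ⟨g, h⟩ else 0
  have hψ' : ∀ s : S, ψ' s = ψ s := fun s => by simp [ψ']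
  let f₁ : G × G → A := fun p => f p + cob1 A.ρ (fun g => - ψ' g) p
  have hf₁ : IsCoc2 A.ρ f₁ := (isCoc2_of_mem_cocycles₂ A f).add (isCoc2_cob1 _)
  have hf₁S : ∀ s t, s ∈ S → t ∈ S → f₁ (s, t) = 0 := by
    intro s t hs ht
    have := congr_fun hψ (⟨s, hs⟩, ⟨t, ht⟩)
    rw [res_apply] at this
    simp only [d₁₂_hom_apply] at this
    simp only [f₁, cob1]
    have e1 := hψ' ⟨s, hs⟩
    have e2 := hψ' ⟨t, ht⟩
    have e3 := hψ' (⟨s, hs⟩ * ⟨t, ht⟩)
    simp only [Subgroup.coe_mul] at e1 e2 e3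
    rw [e1, e2, e3, ← this]
    simp only [map_neg]
    change A.ρ s (ψ ⟨t, ht⟩) - ψ (⟨s, hs⟩ * ⟨t, ht⟩) + ψ ⟨s, hs⟩ +
      (-(A.ρ s) (ψ ⟨t, ht⟩) - -ψ (⟨s, hs⟩ * ⟨t, ht⟩) + -ψ ⟨s, hs⟩) = 0
    abel
  obtain ⟨φ, hφ1, hφ2⟩ := exists_inflated (h1Vanishes_of_isZero A S h1) hf₁ hf₁S
  let f' : G × G → A := fun p => f₁ p + cob1 A.ρ φ p
  have hf' : IsCoc2 A.ρ f' := hf₁.add (isCoc2_cob1 _)
  have hconst : ∀ g h s t, s ∈ S → t ∈ S → f' (g * s, h * t) = f' (g, h) := hφ1
  have hinv : ∀ g h s, s ∈ S → A.ρ s (f' (g, h)) = f' (g, h) := hφ2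
  refine ⟨H2π _ ⟨descend₂ A S f' hinv, descend₂_mem_cocycles₂ A S f' hinv hconst hf'⟩, ?_⟩
  rw [H2π_comp_map_apply, H2π_eq_iff]
  refine ⟨fun g => φ g - ψ' g, ?_⟩
  funext ⟨g, h⟩
  rw [Pi.sub_apply, infl_apply]
  change _ = (descend₂ A S f' hinv ((g : G ⧸ S), (h : G ⧸ S))).1 - f (g, h)
  rw [descend₂_mk A S f' hinv hconst]
  simp only [d₁₂_hom_apply, f', f₁, cob1, map_sub, map_neg]
  abel

theorem H2InfRes_mono (h1 : Limits.IsZero (groupCohomology (res S.subtype A) 1)) :
    Mono (H2InfRes A S).f :=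
  (ModuleCat.mono_iff_injective _).2 (infl₂_injective A S h1)

theorem H2InfRes_exact (h1 : Limits.IsZero (groupCohomology (res S.subtype A) 1)) :
    (H2InfRes A S).Exact := by
  rw [ShortComplex.moduleCat_exact_iff_ker_sub_range]
  intro y hy
  exact exists_infl₂_eq_of_res₂_eq_zero A S h1 y hy

/-- Counting form: `|H²(G, A)|` divides `|H²(G ⧸ S, A^S)| * |H²(S, A)|` when `H¹(S, A) = 0`. -/
theorem card_H2_dvd (h1 : Limits.IsZero (groupCohomology (res S.subtype A) 1))
    [Finite (groupCohomology (A.quotientToInvariants S) 2)]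
    [Finite (groupCohomology (res S.subtype A) 2)] :
    Finite (groupCohomology A 2) ∧
      Nat.card (groupCohomology A 2) ∣
        Nat.card (groupCohomology (A.quotientToInvariants S) 2) *
          Nat.card (groupCohomology (res S.subtype A) 2) :=
  card_dvd_of_left_exact (infl₂ A S).hom.toAddMonoidHom (res₂ A S).hom.toAddMonoidHom
    (infl₂_injective A S h1) (fun y hy => exists_infl₂_eq_of_res₂_eq_zero A S h1 y hy)

end Fermat.Agent.S55.Devissage38
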