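/-
Fermat.Agent.S55.Devissage38.PGroup (helper38)

Devissage "cyclic of order p ⟹ all p-groups" for an abstract class `P` of (group, module) pairs
closed under restriction to / quotient by normal subgroups of index `p`:
`H¹ = 0` and `|H²|` divides the group order.
-/
import Mathlib
import Fermat.Agent.S55.Devissage38.InfRes2

set_option autoImplicit false
set_option linter.style.haveILetI false

universe u

open CategoryTheory groupCohomology Rep

namespace Fermat.Agent.S55.Devissage38

/-- A nontrivial finite `p`-group has a normal subgroup of index `p`. -/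
theorem exists_normal_index_prime (p : ℕ) [Fact p.Prime] (Q : Type*) [Group Q] [Finite Q]
    (hQ : IsPGroup p Q) [Nontrivial Q] : ∃ N : Subgroup Q, N.Normal ∧ N.index = p := by
  obtain ⟨n, hn0, hcard⟩ := hQ.nontrivial_iff_card.1 ‹_›
  obtain ⟨m, rfl⟩ : ∃ m, n = m + 1 := ⟨n - 1, by omega⟩
  have hdvd : p ^ m ∣ Nat.card Q := by rw [hcard]; exact pow_dvd_pow p (Nat.le_succ m)
  obtain ⟨H, hH⟩ := Sylow.exists_subgroup_card_pow_prime p hdvd
  have hp := (Fact.out : p.Prime)
  have hidx : H.index = p := by
    have h1 := H.index_mul_card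
    rw [hH, hcard, pow_succ, mul_comm] at h1
    exact Nat.eq_of_mul_eq_mul_left (pow_pos hp.pos m) h1
  have hcoatom : IsCoatom H := by
    refine ⟨fun htop => ?_, fun K hK => ?_⟩
    · rw [htop, Subgroup.index_top] at hidx
      exact hp.one_lt.ne hidx
    · have h1 := Subgroup.relIndex_mul_index hK.le
      rw [hidx] at h1
      rcases (Nat.dvd_prime hp).1 (Dvd.intro_left _ h1) with h2 | h2
      · exact Subgroup.index_eq_one.1 h2
      · rw [h2] at h1
        have h3 : H.relIndex K = 1 := by
          have := Nat.eq_of_mul_eq_mul_right hp.pos (h1.trans (one_mul p).symm)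
          exact this
        exact absurd (Subgroup.relIndex_eq_one.1 h3) (not_le_of_gt hK)
  have hnil : Group.IsNilpotent Q := hQ.isNilpotent
  have hnormal : ∀ H : Subgroup Q, IsCoatom H → H.Normal :=
    (Group.isNilpotent_of_finite_tfae (G := Q)).out 0 2 |>.1 hnil
  exact ⟨H, hnormal H hcoatom, hidx⟩

variable {k : Type u} [CommRing k]

/-- **Devissage for `p`-groups.** -/
theorem pGroup_devissage (p : ℕ) [Fact p.Prime]
    (P : ∀ (Q : Type u) [Group Q], Rep k Q → Prop)
    (hres : ∀ (Q : Type u) [Group Q] (B : Rep k Q) (Q' : Subgroup Q) [Q'.Normal],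
      Q'.index = p → P Q B → P Q' (res Q'.subtype B))
    (hquot : ∀ (Q : Type u) [Group Q] (B : Rep k Q) (Q' : Subgroup Q) [Q'.Normal],
      Q'.index = p → P Q B → P (Q ⧸ Q') (B.quotientToInvariants Q'))
    (hcyc : ∀ (Q : Type u) [Group Q] (B : Rep k Q), P Q B → Nat.card Q = p →
      Limits.IsZero (groupCohomology B 1) ∧ Finite (groupCohomology B 2) ∧
        Nat.card (groupCohomology B 2) ∣ p)
    (Q : Type u) [Group Q] [Finite Q] (hQ : IsPGroup p Q) (B : Rep k Q) (hB : P Q B) :
    Limits.IsZero (groupCohomology B 1) ∧ Finite (groupCohomology B 2) ∧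
      Nat.card (groupCohomology B 2) ∣ Nat.card Q := by
  induction' hn : Nat.card Q using Nat.strong_induction_on with n ih generalizing Q
  subst hn
  rcases subsingleton_or_nontrivial Q with hsub | hnt
  · have h1 := isZero_groupCohomology_succ_of_subsingleton B 0
    have h2 := isZero_groupCohomology_succ_of_subsingleton B 1
    have : Subsingleton (groupCohomology B 2) := ModuleCat.subsingleton_of_isZero h2
    refine ⟨h1, inferInstance, ?_⟩
    rw [Nat.card_unique]
    exact one_dvd _
  · obtain ⟨N, hN, hidx⟩ := exists_normal_index_prime p Q hQ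
    have hp := (Fact.out : p.Prime)
    have hcardQ : Nat.card Q = p * Nat.card N := by rw [← hidx, N.index_mul_card]
    have hlt : Nat.card N < Nat.card Q := by
      rw [hcardQ]
      exact lt_mul_of_one_lt_left Nat.card_pos hp.one_lt
    obtain ⟨hN1, hN2fin, hN2⟩ :=
      ih (Nat.card N) hlt N (hQ.to_subgroup N) (res N.subtype B) (hres Q B N hidx hB) rfl
    have hcardquot : Nat.card (Q ⧸ N) = p := by rw [← hidx]; rfl
    obtain ⟨hq1, hq2fin, hq2⟩ := hcyc (Q ⧸ N) _ (hquot Q B N hidx hB) hcardquot
    refine ⟨?_, ?_⟩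
    · exact (H1InfRes_exact B N).isZero_of_both_zeros (hq1.eq_of_src _ _) (hN1.eq_of_tgt _ _)
    · obtain ⟨hfin, hdvd⟩ := card_H2_dvd B N hN1
      refine ⟨hfin, hdvd.trans ?_⟩
      rw [hcardQ]
      exact Nat.mul_dvd_mul hq2 hN2

end Fermat.Agent.S55.Devissage38
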